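import Fermat.Agent.GAL.Interface

/-!
# S32 / Alg / Closed: a continuous function on `G_ℚ` with values in a finite `𝒪`-module which maps powers of Frobenius
elements into a submodule `Γ` maps everything into `Γ`

(`Γ` is closed: Krull's intersection theorem for `Q ⧸ Γ`, `Ideal.iInf_pow_smul_eq_bot_of_isLocalRing`.)
Also: the Artin--Rees consequence used to pass to finite level.
-/

set_option autoImplicit false

namespace Fermat.Agent.S32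

open Fermat.Agent.GAL

/-- `⋂ₙ (Γ + 𝔪ⁿ Q) = Γ`. -/
theorem mem_of_forall_mem_sup {𝒪 : Type*} [CommRing 𝒪] [IsLocalRing 𝒪] [IsNoetherianRing 𝒪]
    {Q : Type*} [AddCommGroup Q] [Module 𝒪 Q] [Module.Finite 𝒪 Q] (Γ : Submodule 𝒪 Q) (x : Q)
    (h : ∀ n : ℕ, x ∈ Γ ⊔ (IsLocalRing.maximalIdeal 𝒪 ^ n) • (⊤ : Submodule 𝒪 Q)) : x ∈ Γ := by
  have hK := Ideal.iInf_pow_smul_eq_bot_of_isLocalRing (M := Q ⧸ Γ) (IsLocalRing.maximalIdeal 𝒪)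
    Ideal.IsPrime.ne_top'
  have h1 : Γ.mkQ x ∈ (⨅ i : ℕ, IsLocalRing.maximalIdeal 𝒪 ^ i • ⊤ : Submodule 𝒪 (Q ⧸ Γ)) := by
    rw [Submodule.mem_iInf]
    intro n
    obtain ⟨y, hy, z, hz, rfl⟩ := Submodule.mem_sup.1 (h n)
    rw [map_add, (Submodule.Quotient.mk_eq_zero Γ).2 hy |> fun e => (e : Γ.mkQ y = 0), zero_add]
    have h2 : Γ.mkQ z ∈ Submodule.map Γ.mkQ
        (IsLocalRing.maximalIdeal 𝒪 ^ n • (⊤ : Submodule 𝒪 Q)) := Submodule.mem_map_of_mem hz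
    rw [Submodule.map_smul''] at h2
    exact Submodule.smul_mono le_rfl le_top h2
  rw [hK, Submodule.mem_bot] at h1
  exact (Submodule.Quotient.mk_eq_zero Γ).1 h1

theorem mem_of_frobeniusDensity (hFD : FrobeniusDensity) {𝒪 : Type*} [CommRing 𝒪] [IsLocalRing 𝒪]
    [IsNoetherianRing 𝒪] {Q : Type*} [AddCommGroup Q] [Module 𝒪 Q] [Module.Finite 𝒪 Q]
    (Γ : Submodule 𝒪 Q) (u : GQ → Q)
    (hcont : ∀ n : ℕ, ∃ F : IntermediateField ℚ (AlgebraicClosure ℚ), FiniteDimensional ℚ F ∧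
      ∀ g g' : GQ, (∀ x ∈ F, g x = g' x) →
        u g - u g' ∈ (IsLocalRing.maximalIdeal 𝒪 ^ n) • (⊤ : Submodule 𝒪 Q))
    (B : Finset ℕ)
    (hfrob : ∀ ℓ : ℕ, ℓ.Prime → ℓ ∉ B → ∀ A : ValuationSubring (AlgebraicClosure ℚ),
      A.LiesOverPrime ℓ → ∀ σ : GQ, A.IsFrobeniusAt σ ℓ → ∀ b : ℕ, u (σ ^ b) ∈ Γ) (g : GQ) :
    u g ∈ Γ := by
  apply mem_of_forall_mem_sup
  intro n
  obtain ⟨F, hF, hu⟩ := hcont n
  obtain ⟨ℓ, A, σ, b, hℓ, hℓB, hA, hσ, hx⟩ := hFD F hF g B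
  have h1 : u g = u (σ ^ b) + (u g - u (σ ^ b)) := by abel
  rw [h1]
  exact Submodule.add_mem_sup (hfrob ℓ hℓ hℓB A hA σ hσ b) (hu g (σ ^ b) fun x hxF => (hx x hxF).symm)

/-- Artin--Rees: if `ker φ ≤ ker φ'` then `φ x ∈ J^K P ⟹ φ' x ∈ J^j P'` for `K` large. -/
theorem exists_pow_of_ker_le {𝒪 X P P' : Type*} [CommRing 𝒪] [IsNoetherianRing 𝒪] [AddCommGroup X]
    [Module 𝒪 X] [AddCommGroup P] [Module 𝒪 P] [Module.Finite 𝒪 P] [AddCommGroup P'] [Module 𝒪 P']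
    (φ : X →ₗ[𝒪] P) (φ' : X →ₗ[𝒪] P') (h : LinearMap.ker φ ≤ LinearMap.ker φ') (J : Ideal 𝒪) (j : ℕ) :
    ∃ K : ℕ, ∀ x : X, φ x ∈ J ^ K • (⊤ : Submodule 𝒪 P) → φ' x ∈ J ^ j • (⊤ : Submodule 𝒪 P') := by
  obtain ⟨c, hc⟩ := Ideal.exists_pow_inf_eq_pow_smul J (LinearMap.range φ)
  refine ⟨j + c, fun x hx => ?_⟩
  have h1 : φ x ∈ J ^ (j + c) • (⊤ : Submodule 𝒪 P) ⊓ LinearMap.range φ := ⟨hx, ⟨x, rfl⟩⟩
  rw [hc (j + c) (Nat.le_add_left c j), Nat.add_sub_cancel] at h1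
  have h2 : φ x ∈ J ^ j • LinearMap.range φ := Submodule.smul_mono le_rfl inf_le_right h1
  rw [LinearMap.range_eq_map, ← Submodule.map_smul''] at h2
  obtain ⟨x', hx', hxx'⟩ := h2
  have h3 : x - x' ∈ LinearMap.ker φ := by
    rw [LinearMap.mem_ker, map_sub, hxx', sub_self]
  have h4 : φ' x = φ' x' := by
    have := h h3
    rw [LinearMap.mem_ker, map_sub, sub_eq_zero] at this
    exact this
  rw [h4]
  have h5 : φ' x' ∈ Submodule.map φ' (J ^ j • (⊤ : Submodule 𝒪 X)) := Submodule.mem_map_of_mem hx'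
  rw [Submodule.map_smul''] at h5
  exact Submodule.smul_mono le_rfl le_top h5

end Fermat.Agent.S32
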