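import Fermat.Agent.S32.Alg.Datum
import Fermat.Agent.GAL.S31.Abstract

/-!
# S32 / Alg / Cont: the function `u g = (g + ε(g) g⁻¹, tr ρ(g))` is continuous

If `g, g'` agree on `F` then `τ := g'⁻¹ g` and `τ⁻¹` fix `F`; `AO g - AO g' = AO g' (AO τ - 1)`,
`AO g⁻¹ - AO g'⁻¹ = (AO τ⁻¹ - 1) AO g'⁻¹`, `ε g - ε g' = ε g' (ε τ - 1)`, `ρ g - ρ g' = ρ g' (ρ τ - 1)` and
`GAL.S31.trace_mem_of_forall_mem`.  Take `F` the compositum of the fields given by `AO_cont n`, `ε_cont n`,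
`ρ.isAdicContinuous k` with `k` from `exists_maximalIdeal_pow_le`.
-/

set_option autoImplicit false

namespace Fermat.Agent.S32

open Fermat.Agent.GAL

variable {𝒪 T : Type} [CommRing 𝒪] [IsLocalRing 𝒪] [CommRing T] [IsLocalRing T] [Algebra 𝒪 T]

/-- `T / 𝔪_𝒪 T` is a local Artinian ring (finite over the field `𝒪 / 𝔪_𝒪`), so its maximal ideal is nilpotent
(`IsArtinianRing.isNilpotent_jacobson_bot`): `𝔪_T^k ⊆ 𝔪_𝒪 T`, hence `𝔪_T^(k n) ⊆ 𝔪_𝒪^n T`. -/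
theorem exists_maximalIdeal_pow_le [Module.Finite 𝒪 T] [IsLocalHom (algebraMap 𝒪 T)] (n : ℕ) :
    ∃ k : ℕ, IsLocalRing.maximalIdeal T ^ k ≤
      (IsLocalRing.maximalIdeal 𝒪 ^ n).map (algebraMap 𝒪 T) := by
  set m := IsLocalRing.maximalIdeal 𝒪 with hm
  set I := m.map (algebraMap 𝒪 T) with hI
  let _ : Field (𝒪 ⧸ m) := Ideal.Quotient.field m
  have : Module.Finite (𝒪 ⧸ m) (T ⧸ I) := Module.Finite.of_restrictScalars_finite 𝒪 _ _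
  have : IsArtinianRing (T ⧸ I) := IsArtinianRing.of_finite (𝒪 ⧸ m) (T ⧸ I)
  obtain ⟨k, hk⟩ := IsArtinianRing.isNilpotent_jacobson_bot (R := T ⧸ I)
  have h1 : (IsLocalRing.maximalIdeal T).map (Ideal.Quotient.mk I) ≤ Ideal.jacobson ⊥ := by
    rw [Ideal.map_le_iff_le_comap]
    intro t ht
    rw [Ideal.mem_comap, Ideal.mem_jacobson_bot]
    intro y
    obtain ⟨s, rfl⟩ := Ideal.Quotient.mk_surjective y
    rw [← map_mul, ← map_one (Ideal.Quotient.mk I), ← map_add]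
    apply IsUnit.map
    by_contra hu
    have h2 : t * s + 1 ∈ IsLocalRing.maximalIdeal T := (IsLocalRing.mem_maximalIdeal _).mpr hu
    have h3 : (1 : T) ∈ IsLocalRing.maximalIdeal T := by
      have := (IsLocalRing.maximalIdeal T).sub_mem h2
        ((IsLocalRing.maximalIdeal T).mul_mem_right s ht)
      rwa [add_sub_cancel_left] at this
    exact (Ideal.ne_top_iff_one _).mp (IsLocalRing.maximalIdeal.isMaximal T).ne_top h3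
  have h2 : IsLocalRing.maximalIdeal T ^ k ≤ I := by
    have h3 : (IsLocalRing.maximalIdeal T ^ k).map (Ideal.Quotient.mk I) ≤ ⊥ := by
      rw [Ideal.map_pow, ← Ideal.zero_eq_bot, ← hk]
      exact Ideal.pow_right_mono h1 k
    rw [Ideal.map_le_iff_le_comap, ← RingHom.ker_eq_comap_bot, Ideal.mk_ker] at h3
    exact h3
  refine ⟨k * n, ?_⟩
  rw [pow_mul, Ideal.map_pow]
  exact Ideal.pow_right_mono h2 n

omit [IsLocalRing 𝒪] [IsLocalRing T] in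
theorem prod_mem_smul_top {r : ℕ} (J : Ideal 𝒪) (M : Matrix (Fin r) (Fin r) 𝒪) (x : T)
    (hM : ∀ i j, M i j ∈ J) (hx : x ∈ J.map (algebraMap 𝒪 T)) :
    (M, x) ∈ J • (⊤ : Submodule 𝒪 (Matrix (Fin r) (Fin r) 𝒪 × T)) := by
  have hM' : M ∈ J • (⊤ : Submodule 𝒪 (Matrix (Fin r) (Fin r) 𝒪)) := by
    rw [Matrix.matrix_eq_sum_single M]
    refine Submodule.sum_mem _ fun i _ => Submodule.sum_mem _ fun j _ => ?_
    have : Matrix.single i j (M i j) = M i j • Matrix.single i j (1 : 𝒪) := by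
      rw [Matrix.smul_single, smul_eq_mul, mul_one]
    rw [this]
    exact Submodule.smul_mem_smul (hM i j) Submodule.mem_top
  have hx' : x ∈ J • (⊤ : Submodule 𝒪 T) := by
    rw [Ideal.smul_top_eq_map]
    exact hx
  have h1 : (M, (0 : T)) ∈ J • (⊤ : Submodule 𝒪 (Matrix (Fin r) (Fin r) 𝒪 × T)) := by
    have h2 : (M, (0 : T)) ∈ (J • (⊤ : Submodule 𝒪 (Matrix (Fin r) (Fin r) 𝒪))).map
        (LinearMap.inl 𝒪 (Matrix (Fin r) (Fin r) 𝒪) T) := ⟨M, hM', rfl⟩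
    rw [Submodule.map_smul''] at h2
    exact Submodule.smul_mono le_rfl le_top h2
  have h2 : ((0 : Matrix (Fin r) (Fin r) 𝒪), x) ∈
      J • (⊤ : Submodule 𝒪 (Matrix (Fin r) (Fin r) 𝒪 × T)) := by
    have h3 : ((0 : Matrix (Fin r) (Fin r) 𝒪), x) ∈ (J • (⊤ : Submodule 𝒪 T)).map
        (LinearMap.inr 𝒪 (Matrix (Fin r) (Fin r) 𝒪) T) := ⟨x, hx', rfl⟩
    rw [Submodule.map_smul''] at h3
    exact Submodule.smul_mono le_rfl le_top h3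
  have h3 : (M, x) = (M, (0 : T)) + ((0 : Matrix (Fin r) (Fin r) 𝒪), x) := by
    simp
  rw [h3]
  exact Submodule.add_mem _ h1 h2

omit [IsLocalRing 𝒪] in
theorem Cont_mul_mem_left {r : ℕ} (J : Ideal 𝒪) (A B : Matrix (Fin r) (Fin r) 𝒪)
    (hB : ∀ i j, B i j ∈ J) : ∀ i j, (A * B) i j ∈ J := by
  intro i j
  rw [Matrix.mul_apply]
  exact J.sum_mem fun l _ => J.mul_mem_left _ (hB l j)

omit [IsLocalRing 𝒪] in
theorem Cont_mul_mem_right {r : ℕ} (J : Ideal 𝒪) (A B : Matrix (Fin r) (Fin r) 𝒪)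
    (hA : ∀ i j, A i j ∈ J) : ∀ i j, (A * B) i j ∈ J := by
  intro i j
  rw [Matrix.mul_apply]
  exact J.sum_mem fun l _ => J.mul_mem_right _ (hA i l)

theorem AlgDatum.u_cont [Module.Finite 𝒪 T] [IsLocalHom (algebraMap 𝒪 T)] (D : AlgDatum 𝒪 T) (n : ℕ) :
    ∃ F : IntermediateField ℚ (AlgebraicClosure ℚ), FiniteDimensional ℚ F ∧
      ∀ g g' : GQ, (∀ x ∈ F, g x = g' x) →
        D.u g - D.u g' ∈ (IsLocalRing.maximalIdeal 𝒪 ^ n) •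
          (⊤ : Submodule 𝒪 (Matrix (Fin D.r) (Fin D.r) 𝒪 × T)) := by
  obtain ⟨k, hk⟩ := exists_maximalIdeal_pow_le (𝒪 := 𝒪) (T := T) n
  obtain ⟨F₁, hF₁, h₁⟩ := D.AO_cont n
  obtain ⟨F₂, hF₂, h₂⟩ := D.ε_cont n
  obtain ⟨F₃, hF₃, h₃⟩ := D.ρ.isAdicContinuous k
  refine ⟨F₁ ⊔ F₂ ⊔ F₃, inferInstance, fun g g' hgg' => ?_⟩
  set J := IsLocalRing.maximalIdeal 𝒪 ^ n with hJ
  set τ : GQ := g'⁻¹ * g with hτ
  have hg : g = g' * τ := by rw [hτ, mul_inv_cancel_left]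
  have hginv : g⁻¹ = τ⁻¹ * g'⁻¹ := by rw [hg, mul_inv_rev]
  have hτfix : ∀ x ∈ F₁ ⊔ F₂ ⊔ F₃, τ x = x := by
    intro x hx
    rw [hτ, AlgEquiv.mul_apply, hgg' x hx, ← AlgEquiv.mul_apply, inv_mul_cancel, AlgEquiv.one_apply]
  have hτinvfix : ∀ x ∈ F₁ ⊔ F₂ ⊔ F₃, τ⁻¹ x = x := by
    intro x hx
    conv_lhs => rw [← hτfix x hx]
    rw [← AlgEquiv.mul_apply, inv_mul_cancel, AlgEquiv.one_apply]
  have hle₁ : F₁ ≤ F₁ ⊔ F₂ ⊔ F₃ := le_sup_left.trans le_sup_left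
  have hle₂ : F₂ ≤ F₁ ⊔ F₂ ⊔ F₃ := le_sup_right.trans le_sup_left
  have hle₃ : F₃ ≤ F₁ ⊔ F₂ ⊔ F₃ := le_sup_right
  have e1 : ∀ i j, (D.AO τ - 1) i j ∈ J := h₁ τ fun x hx => hτfix x (hle₁ hx)
  have e2 : ∀ i j, (D.AO τ⁻¹ - 1) i j ∈ J := h₁ τ⁻¹ fun x hx => hτinvfix x (hle₁ hx)
  have e3 : ((D.ε τ : 𝒪ˣ) : 𝒪) - 1 ∈ J := h₂ τ fun x hx => hτfix x (hle₂ hx)
  have e4 := h₃ τ fun x hx => hτfix x (hle₃ hx)
  have hfst : (D.u g - D.u g').1 = D.AO g' * (D.AO τ - 1)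
      + ((((D.ε g' : 𝒪ˣ) : 𝒪) * (((D.ε τ : 𝒪ˣ) : 𝒪) - 1)) • D.AO g⁻¹
      + ((D.ε g' : 𝒪ˣ) : 𝒪) • ((D.AO τ⁻¹ - 1) * D.AO g'⁻¹)) := by
    have a1 : D.AO g = D.AO g' * D.AO τ := by rw [← map_mul, ← hg]
    have a2 : D.AO g⁻¹ = D.AO τ⁻¹ * D.AO g'⁻¹ := by rw [← map_mul, ← hginv]
    have a3 : ((D.ε g : 𝒪ˣ) : 𝒪) = ((D.ε g' : 𝒪ˣ) : 𝒪) * ((D.ε τ : 𝒪ˣ) : 𝒪) := by
      rw [← Units.val_mul, ← map_mul, ← hg]
    change D.AO g + ((D.ε g : 𝒪ˣ) : 𝒪) • D.AO g⁻¹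
      - (D.AO g' + ((D.ε g' : 𝒪ˣ) : 𝒪) • D.AO g'⁻¹) = _
    rw [a3, a1, mul_sub, mul_sub, sub_smul, sub_mul, smul_sub, mul_one, mul_one, one_mul, ← a2]
    abel
  have hsnd : (D.u g - D.u g').2 = LinearMap.trace T D.ρ.V (D.ρ.ρ g' * (D.ρ.ρ τ - 1)) := by
    change LinearMap.trace T D.ρ.V (D.ρ.ρ g) - LinearMap.trace T D.ρ.V (D.ρ.ρ g') = _
    rw [← map_sub, mul_sub, mul_one, ← map_mul, ← hg]
  have hu : D.u g - D.u g' = ((D.u g - D.u g').1, (D.u g - D.u g').2) := rfl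
  rw [hu]
  apply prod_mem_smul_top
  · intro i j
    rw [hfst, Matrix.add_apply, Matrix.add_apply, Matrix.smul_apply, Matrix.smul_apply]
    refine J.add_mem (Cont_mul_mem_left J _ _ e1 i j) (J.add_mem ?_ ?_)
    · rw [smul_eq_mul]
      exact J.mul_mem_right _ (J.mul_mem_left _ e3)
    · rw [smul_eq_mul]
      exact J.mul_mem_left _ (Cont_mul_mem_right J _ _ e2 i j)
  · apply hk
    rw [hsnd]
    refine GAL.S31.trace_mem_of_forall_mem _ _ fun v => ?_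
    rw [Module.End.mul_apply, LinearMap.sub_apply, Module.End.one_apply]
    have h5 : D.ρ.ρ g' (D.ρ.ρ τ v - v) ∈
        ((IsLocalRing.maximalIdeal T ^ k) • (⊤ : Submodule T D.ρ.V)).map (D.ρ.ρ g') :=
      ⟨_, e4 v, rfl⟩
    rw [Submodule.map_smul''] at h5
    exact Submodule.smul_mono le_rfl le_top h5

end Fermat.Agent.S32
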