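import Fermat.Agent.S32.Alg.Tensor
import Fermat.Agent.GAL.Interface

/-!
# S32 / Alg / Datum: the abstract algebraic datum

`AlgDatum 𝒪 T` : a commutative ring `C` of Hecke correspondences acting faithfully on `ℤ^r`, a continuous action `AO` of
`G_ℚ` on `𝒪^r` commuting with `C`, a continuous character `ε`, the Eichler--Shimura relation for `AO` and the
characteristic polynomials of Frobenius for a representation `ρ : G_ℚ → GL₂(T)`.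
-/

set_option autoImplicit false

namespace Fermat.Agent.S32

open Fermat.Agent.GAL Polynomial
open scoped TensorProduct

/-- The abstract datum. -/
structure AlgDatum (𝒪 T : Type) [CommRing 𝒪] [IsLocalRing 𝒪] [CommRing T] [IsLocalRing T]
    [Algebra 𝒪 T] : Type 1 where
  r : ℕ
  C : Type
  [instC : CommRing C]
  Φ : C →+* Matrix (Fin r) (Fin r) ℤ
  Φ_inj : Function.Injective Φ
  ψ : C →+* T
  AO : GQ →* Matrix (Fin r) (Fin r) 𝒪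
  AO_comm : ∀ (c : C) (σ : GQ),
    (Φ c).map (Int.castRingHom 𝒪) * AO σ = AO σ * (Φ c).map (Int.castRingHom 𝒪)
  AO_cont : ∀ n : ℕ, ∃ F : IntermediateField ℚ (AlgebraicClosure ℚ), FiniteDimensional ℚ F ∧
    ∀ σ : GQ, (∀ x ∈ F, σ x = x) → ∀ i j, (AO σ - 1) i j ∈ IsLocalRing.maximalIdeal 𝒪 ^ n
  ε : GQ →* 𝒪ˣ
  ε_cont : ∀ n : ℕ, ∃ F : IntermediateField ℚ (AlgebraicClosure ℚ), FiniteDimensional ℚ F ∧
    ∀ σ : GQ, (∀ x ∈ F, σ x = x) → ((ε σ : 𝒪ˣ) : 𝒪) - 1 ∈ IsLocalRing.maximalIdeal 𝒪 ^ n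
  B : Finset ℕ
  X : ℕ → C
  ε_frob : ∀ ℓ : ℕ, ℓ.Prime → ℓ ∉ B → ∀ A : ValuationSubring (AlgebraicClosure ℚ),
    A.LiesOverPrime ℓ → ∀ σ : GQ, A.IsFrobeniusAt σ ℓ → ((ε σ : 𝒪ˣ) : 𝒪) = (ℓ : 𝒪)
  AO_ES : ∀ ℓ : ℕ, ℓ.Prime → ℓ ∉ B → ∀ A : ValuationSubring (AlgebraicClosure ℚ),
    A.LiesOverPrime ℓ → ∀ σ : GQ, A.IsFrobeniusAt σ ℓ →
      AO σ * AO σ - (Φ (X ℓ)).map (Int.castRingHom 𝒪) * AO σ + (ℓ : Matrix (Fin r) (Fin r) 𝒪) = 0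
  ρ : GaloisRepAdic T
  ρ_char : ∀ ℓ : ℕ, ℓ.Prime → ℓ ∉ B → ∀ A : ValuationSubring (AlgebraicClosure ℚ),
    A.LiesOverPrime ℓ → ∀ σ : GQ, A.IsFrobeniusAt σ ℓ →
      LinearMap.charpoly (ρ.ρ σ) = Polynomial.X ^ 2 - Polynomial.C (ψ (X ℓ)) * Polynomial.X
        + Polynomial.C ((ℓ : T))
  ρ_absIrr : ρ.residual.IsAbsolutelyIrreducible

attribute [instance] AlgDatum.instC

namespace AlgDatum

variable {𝒪 T : Type} [CommRing 𝒪] [IsLocalRing 𝒪] [CommRing T] [IsLocalRing T] [Algebra 𝒪 T]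
  (D : AlgDatum 𝒪 T)

/-- The Hecke algebra `𝒪 ⊗ C`. -/
abbrev HT : Type := 𝒪 ⊗[ℤ] D.C

/-- `g ↦ (g + ε(g) g⁻¹, tr ρ(g))`. -/
noncomputable def u (g : GQ) : Matrix (Fin D.r) (Fin D.r) 𝒪 × T :=
  (D.AO g + ((D.ε g : 𝒪ˣ) : 𝒪) • D.AO g⁻¹, LinearMap.trace T D.ρ.V (D.ρ.ρ g))

/-- The graph of the Hecke algebra. -/
noncomputable def Γ : Submodule 𝒪 (Matrix (Fin D.r) (Fin D.r) 𝒪 × T) :=
  LinearMap.range ((alphaHom 𝒪 D.Φ).toLinearMap.prod (piHom 𝒪 D.ψ).toLinearMap)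

theorem mem_Γ_iff (x : Matrix (Fin D.r) (Fin D.r) 𝒪 × T) :
    x ∈ D.Γ ↔ ∃ t : D.HT, alphaHom 𝒪 D.Φ t = x.1 ∧ piHom 𝒪 D.ψ t = x.2 := by
  constructor
  · rintro ⟨t, rfl⟩
    exact ⟨t, rfl, rfl⟩
  · rintro ⟨t, h1, h2⟩
    exact ⟨t, Prod.ext h1 h2⟩

end AlgDatum

end Fermat.Agent.S32
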