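import Mathlib

/-!
# S32 / Alg / Formal: the formal kernel lemma

`𝕋` a commutative ring ("Hecke algebra"), `α : 𝕋 → E` an injective ring homomorphism ("action on the Tate module"),
`A : G → E` a representation commuting with `α 𝕋`, `ε : G → 𝕋` a character, `t : G → 𝕋` with
`A g + ε(g) A g⁻¹ = α (t g)` (Eichler--Shimura).  Let `π : 𝕋 → T` be a ring homomorphism and `R : G → M₂(T)` a
representation with `tr R g = π (t g)` whose image spans `M₂(T)`.  Then every relation `∑ c_i A(γ_i) = 0`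
(`c_i ∈ 𝕋`) implies `∑ π(c_i) R(γ_i) = 0`.

## Proof of `formal_key`
Put `z := ∑ c_i t(γ_i)`.  As `∑ α(c_i) A(γ_i) = 0`: `α z = ∑ α(c_i ε(γ_i)) A(γ_i⁻¹)`.
(1) for `h : G`: `A h * α z = α (ζ h)` with `ζ h := ε h * ∑ c_i t(γ_i h⁻¹)`.  Indeed
`∑ α(c_i) α(t(γ_i h⁻¹)) = (∑ α(c_i) A(γ_i)) A(h⁻¹) + α(ε(h⁻¹)) A(h) ∑ α(c_i ε(γ_i)) A(γ_i⁻¹) = α(ε h⁻¹) A(h) α(z)`.
(2) `A g * A h * α z = A g * α(ζ h) = α(ζ h) * A g = A h * α z * A g = A h * A g * α z`.
(3) hence `A (g h k) α z = A(h g k) α z` (move `α z` to the left of `A k`), and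
`A ((g h k)⁻¹) α z = A k⁻¹ A h⁻¹ A g⁻¹ α z = A k⁻¹ A g⁻¹ A h⁻¹ α z = A ((h g k)⁻¹) α z`.
(4) `α (z * t(ghk)) = α z (A(ghk) + α(ε(ghk)) A((ghk)⁻¹))`, `ε(ghk) = ε(hgk)`; conclude by injectivity of `α`.

## Proof of `formal_kernel`
`y := π z = tr (∑ π(c_i) R(γ_i))`.  By `formal_key` and `htr`: `y * tr (R g R h R k - R h R g R k) = 0`; by trilinearity
and `hspan` (three `Submodule.span_induction`s): `y * tr ((X Y - Y X) Z) = 0` for all matrices; `X = E₁₂, Y = E₂₁,
Z = E₁₁` gives `y = 0`.  So `tr (∑ π(c_i) R(γ_i)) = 0` for EVERY relation; apply this to the relation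
`∑ α(c_i) A(γ_i h) = 0`: `tr ((∑ π(c_i) R(γ_i)) R h) = 0` for all `h`, hence `tr (M Y) = 0` for all `Y`, hence `M = 0`
(`Y = Matrix.single j i 1`, `Matrix.trace_mul_single`).
-/

set_option autoImplicit false

namespace Fermat.Agent.S32

variable {E 𝕋 G ι : Type*} [Ring E] [CommRing 𝕋] [Group G]

theorem Formal_alpha_z (α : 𝕋 →+* E) (A : G →* E) (ε : G →* 𝕋) (t : G → 𝕋)
    (ht : ∀ g, α (t g) = A g + α (ε g) * A g⁻¹)
    (s : Finset ι) (c : ι → 𝕋) (γ : ι → G) (h0 : ∑ i ∈ s, α (c i) * A (γ i) = 0) :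
    α (∑ i ∈ s, c i * t (γ i)) = ∑ i ∈ s, α (c i) * (α (ε (γ i)) * A (γ i)⁻¹) := by
  rw [map_sum]
  have : ∀ i ∈ s, α (c i * t (γ i)) =
      α (c i) * A (γ i) + α (c i) * (α (ε (γ i)) * A (γ i)⁻¹) := by
    intro i _
    rw [map_mul, ht, mul_add]
  rw [Finset.sum_congr rfl this, Finset.sum_add_distrib, h0, zero_add]

theorem Formal_step1 (α : 𝕋 →+* E) (A : G →* E)
    (hcomm : ∀ (s : 𝕋) (g : G), α s * A g = A g * α s) (ε : G →* 𝕋) (t : G → 𝕋)
    (ht : ∀ g, α (t g) = A g + α (ε g) * A g⁻¹)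
    (s : Finset ι) (c : ι → 𝕋) (γ : ι → G) (h0 : ∑ i ∈ s, α (c i) * A (γ i) = 0) (h : G) :
    A h * α (∑ i ∈ s, c i * t (γ i)) = α (ε h * ∑ i ∈ s, c i * t (γ i * h⁻¹)) := by
  rw [Formal_alpha_z α A ε t ht s c γ h0, map_mul, map_sum]
  have key : ∀ i ∈ s, α (c i * t (γ i * h⁻¹)) =
      (α (c i) * A (γ i)) * A h⁻¹ +
        α (ε h⁻¹) * (A h * (α (c i) * (α (ε (γ i)) * A (γ i)⁻¹))) := by
    intro i _
    rw [map_mul, ht, mul_add, map_mul A, mul_assoc, mul_inv_rev, inv_inv, map_mul A, map_mul ε,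
      map_mul α]
    congr 1
    -- all the `α`'s commute with everything in sight
    have e1 : α (c i) * (α (ε (γ i)) * α (ε h⁻¹) * (A h * A (γ i)⁻¹)) =
        α (c i * (ε (γ i) * ε h⁻¹)) * A h * A (γ i)⁻¹ := by
      rw [map_mul, map_mul]; noncomm_ring
    have e2 : α (ε h⁻¹) * (A h * (α (c i) * (α (ε (γ i)) * A (γ i)⁻¹))) =
        α (ε h⁻¹) * (A h * α (c i * ε (γ i))) * A (γ i)⁻¹ := by
      rw [map_mul]; noncomm_ring
    have e3 : c i * (ε (γ i) * ε h⁻¹) = ε h⁻¹ * (c i * ε (γ i)) := by ring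
    rw [e1, e2, ← hcomm, ← mul_assoc (α (ε h⁻¹)), e3, map_mul α (ε h⁻¹)]
  rw [Finset.sum_congr rfl key, Finset.sum_add_distrib, ← Finset.sum_mul, h0, zero_mul, zero_add,
    ← Finset.mul_sum, ← Finset.mul_sum, ← mul_assoc, ← map_mul, ← map_mul, mul_inv_cancel, map_one,
    map_one, one_mul]

theorem Formal_step2 (α : 𝕋 →+* E) (A : G →* E)
    (hcomm : ∀ (s : 𝕋) (g : G), α s * A g = A g * α s) (ε : G →* 𝕋) (t : G → 𝕋)
    (ht : ∀ g, α (t g) = A g + α (ε g) * A g⁻¹)
    (s : Finset ι) (c : ι → 𝕋) (γ : ι → G) (h0 : ∑ i ∈ s, α (c i) * A (γ i) = 0) (g h : G) :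
    A g * A h * α (∑ i ∈ s, c i * t (γ i)) = A h * A g * α (∑ i ∈ s, c i * t (γ i)) := by
  rw [mul_assoc, Formal_step1 α A hcomm ε t ht s c γ h0 h, ← hcomm,
    ← Formal_step1 α A hcomm ε t ht s c γ h0 h, mul_assoc, hcomm, mul_assoc]

theorem formal_key (α : 𝕋 →+* E) (hα : Function.Injective α) (A : G →* E)
    (hcomm : ∀ (s : 𝕋) (g : G), α s * A g = A g * α s) (ε : G →* 𝕋) (t : G → 𝕋)
    (ht : ∀ g, α (t g) = A g + α (ε g) * A g⁻¹)
    (s : Finset ι) (c : ι → 𝕋) (γ : ι → G) (h0 : ∑ i ∈ s, α (c i) * A (γ i) = 0) (g h k : G) :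
    (∑ i ∈ s, c i * t (γ i)) * t (g * h * k) = (∑ i ∈ s, c i * t (γ i)) * t (h * g * k) := by
  apply hα
  have h2 := Formal_step2 α A hcomm ε t ht s c γ h0
  set z := ∑ i ∈ s, c i * t (γ i) with hz
  have hε : ε (g * h * k) = ε (h * g * k) := by
    rw [map_mul, map_mul, map_mul, map_mul, mul_comm (ε g)]
  rw [map_mul, map_mul, ht, ht, hε, mul_add, mul_add]
  have c1 : ∀ x, α z * A x = A x * α z := hcomm z
  congr 1
  · calc α z * A (g * h * k) = A (g * h * k) * α z := c1 _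
      _ = A g * A h * A k * α z := by rw [map_mul, map_mul]
      _ = A g * A h * α z * A k := by rw [mul_assoc, ← c1, ← mul_assoc]
      _ = A h * A g * α z * A k := by rw [h2]
      _ = A h * A g * A k * α z := by rw [mul_assoc (A h * A g), c1, ← mul_assoc]
      _ = A (h * g * k) * α z := by rw [map_mul, map_mul]
      _ = α z * A (h * g * k) := (c1 _).symm
  · have c2 : ∀ (e : 𝕋) (X : E), α z * (α e * X) = α e * (α z * X) := by
      intro e X
      rw [← mul_assoc, ← mul_assoc, ← map_mul, ← map_mul, mul_comm]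
    rw [c2, c2]
    congr 1
    calc α z * A (g * h * k)⁻¹ = A (g * h * k)⁻¹ * α z := c1 _
      _ = A k⁻¹ * (A h⁻¹ * A g⁻¹ * α z) := by
          rw [mul_inv_rev, mul_inv_rev, map_mul, map_mul, mul_assoc]
      _ = A k⁻¹ * (A g⁻¹ * A h⁻¹ * α z) := by rw [h2]
      _ = A (h * g * k)⁻¹ * α z := by
          rw [mul_inv_rev, mul_inv_rev, map_mul, map_mul, mul_assoc (A k⁻¹)]
      _ = α z * A (h * g * k)⁻¹ := (c1 _).symm

/-- the trace of every relation vanishes. -/
theorem Formal_trace_zero {T : Type*} [CommRing T] (α : 𝕋 →+* E) (hα : Function.Injective α)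
    (A : G →* E)
    (hcomm : ∀ (s : 𝕋) (g : G), α s * A g = A g * α s) (ε : G →* 𝕋) (t : G → 𝕋)
    (ht : ∀ g, α (t g) = A g + α (ε g) * A g⁻¹)
    (π : 𝕋 →+* T) (R : G →* Matrix (Fin 2) (Fin 2) T) (htr : ∀ g, (R g).trace = π (t g))
    (hspan : Submodule.span T (Set.range R) = ⊤)
    (s : Finset ι) (c : ι → 𝕋) (γ : ι → G) (h0 : ∑ i ∈ s, α (c i) * A (γ i) = 0) :
    π (∑ i ∈ s, c i * t (γ i)) = 0 := by
  set y := π (∑ i ∈ s, c i * t (γ i)) with hy
  have hk : ∀ g h k : G, y * (R g * R h * R k).trace = y * (R h * R g * R k).trace := by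
    intro g h k
    rw [← map_mul, ← map_mul, ← map_mul, ← map_mul, htr, htr, hy, ← map_mul, ← map_mul,
      formal_key α hα A hcomm ε t ht s c γ h0 g h k]
  have hmem : ∀ X : Matrix (Fin 2) (Fin 2) T, X ∈ Submodule.span T (Set.range R) := by
    intro X; rw [hspan]; trivial
  have hk1 : ∀ (X : Matrix (Fin 2) (Fin 2) T) (h k : G),
      y * (X * R h * R k).trace = y * (R h * X * R k).trace := by
    intro X h k
    induction hmem X using Submodule.span_induction with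
    | mem x hx => obtain ⟨g, rfl⟩ := hx; exact hk g h k
    | zero => simp
    | add x x' _ _ hx hx' =>
      simp only [add_mul, mul_add, Matrix.trace_add, hx, hx']
    | smul a x _ hx =>
      simp only [Matrix.smul_mul, Matrix.mul_smul, Matrix.trace_smul, smul_eq_mul]
      rw [mul_left_comm, hx, mul_left_comm]
  have hk2 : ∀ (X Y : Matrix (Fin 2) (Fin 2) T) (k : G),
      y * (X * Y * R k).trace = y * (Y * X * R k).trace := by
    intro X Y k
    induction hmem Y using Submodule.span_induction with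
    | mem x hx => obtain ⟨g, rfl⟩ := hx; exact hk1 X g k
    | zero => simp
    | add x x' _ _ hx hx' =>
      simp only [add_mul, mul_add, Matrix.trace_add, hx, hx']
    | smul a x _ hx =>
      simp only [Matrix.smul_mul, Matrix.mul_smul, Matrix.trace_smul, smul_eq_mul]
      rw [mul_left_comm, hx, mul_left_comm]
  have hk3 : ∀ (X Y Z : Matrix (Fin 2) (Fin 2) T),
      y * (X * Y * Z).trace = y * (Y * X * Z).trace := by
    intro X Y Z
    induction hmem Z using Submodule.span_induction with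
    | mem x hx => obtain ⟨g, rfl⟩ := hx; exact hk2 X Y g
    | zero => simp
    | add x x' _ _ hx hx' =>
      simp only [mul_add, Matrix.trace_add, hx, hx']
    | smul a x _ hx =>
      simp only [Matrix.mul_smul, Matrix.trace_smul, smul_eq_mul]
      rw [mul_left_comm, hx, mul_left_comm]
  have := hk3 (Matrix.single 0 1 1) (Matrix.single 1 0 1) (Matrix.single 0 0 1)
  simpa [Matrix.single_mul_single_same, Matrix.trace_single_eq_same] using this

theorem formal_kernel {T : Type*} [CommRing T] (α : 𝕋 →+* E) (hα : Function.Injective α) (A : G →* E)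
    (hcomm : ∀ (s : 𝕋) (g : G), α s * A g = A g * α s) (ε : G →* 𝕋) (t : G → 𝕋)
    (ht : ∀ g, α (t g) = A g + α (ε g) * A g⁻¹)
    (π : 𝕋 →+* T) (R : G →* Matrix (Fin 2) (Fin 2) T) (htr : ∀ g, (R g).trace = π (t g))
    (hspan : Submodule.span T (Set.range R) = ⊤)
    (s : Finset ι) (c : ι → 𝕋) (γ : ι → G) (h0 : ∑ i ∈ s, α (c i) * A (γ i) = 0) :
    ∑ i ∈ s, π (c i) • R (γ i) = 0 := by
  set M := ∑ i ∈ s, π (c i) • R (γ i) with hM
  have h1 : ∀ h : G, (M * R h).trace = 0 := by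
    intro h
    have hrel : ∑ i ∈ s, α (c i) * A (γ i * h) = 0 := by
      have : ∀ i ∈ s, α (c i) * A (γ i * h) = α (c i) * A (γ i) * A h := by
        intro i _
        rw [map_mul, mul_assoc]
      rw [Finset.sum_congr rfl this, ← Finset.sum_mul, h0, zero_mul]
    have := Formal_trace_zero α hα A hcomm ε t ht π R htr hspan s c (fun i => γ i * h) hrel
    rw [hM, Finset.sum_mul, Matrix.trace_sum]
    rw [map_sum] at this
    rw [← this]
    refine Finset.sum_congr rfl fun i _ => ?_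
    rw [Matrix.smul_mul, Matrix.trace_smul, ← map_mul, htr, map_mul, smul_eq_mul]
  have hmem : ∀ X : Matrix (Fin 2) (Fin 2) T, X ∈ Submodule.span T (Set.range R) := by
    intro X; rw [hspan]; trivial
  have h2 : ∀ Y : Matrix (Fin 2) (Fin 2) T, (M * Y).trace = 0 := by
    intro Y
    induction hmem Y using Submodule.span_induction with
    | mem x hx => obtain ⟨g, rfl⟩ := hx; exact h1 g
    | zero => simp
    | add x x' _ _ hx hx' => rw [mul_add, Matrix.trace_add, hx, hx', add_zero]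
    | smul a x _ hx => rw [Matrix.mul_smul, Matrix.trace_smul, hx, smul_zero]
  ext i j
  have := h2 (Matrix.single j i 1)
  rw [Matrix.trace_mul_single] at this
  simpa using this

end Fermat.Agent.S32
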