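import Fermat.Agent.S32.Alg.Datum
import Fermat.Agent.GAL.S31.Dickson

/-!
# S32 / Alg / Frob: powers of Frobenius elements

`u (σ^b) = (α t, π t)` with `t = 1 ⊗ dickson (X ℓ) ℓ b`
(`GAL.S31.pow_add_pow_eq_dickson`, `trace_pow_eq_dickson`, `map_dickson`; `ε (σ^b) = ℓ^b`).
-/

set_option autoImplicit false

namespace Fermat.Agent.S32

open Fermat.Agent.GAL
open scoped TensorProduct

variable {𝒪 T : Type} [CommRing 𝒪] [IsLocalRing 𝒪] [CommRing T] [IsLocalRing T] [Algebra 𝒪 T]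

theorem AlgDatum.u_frob (D : AlgDatum 𝒪 T) {ℓ : ℕ} (hℓ : ℓ.Prime) (hℓB : ℓ ∉ D.B)
    (A : ValuationSubring (AlgebraicClosure ℚ)) (hA : A.LiesOverPrime ℓ) (σ : GQ)
    (hσ : A.IsFrobeniusAt σ ℓ) (b : ℕ) : D.u (σ ^ b) ∈ D.Γ := by
  rw [D.mem_Γ_iff]
  refine ⟨(1 : 𝒪) ⊗ₜ[ℤ] S31.dickson (D.X ℓ) (ℓ : D.C) b, ?_, ?_⟩
  · rw [alphaHom_tmul, one_smul]
    let f : D.C →+* Matrix (Fin D.r) (Fin D.r) 𝒪 := (Int.castRingHom 𝒪).mapMatrix.comp D.Φ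
    have h1 : ∀ c : D.C, (D.Φ c).map (Int.castRingHom 𝒪) = f c := fun _ => rfl
    rw [h1, S31.map_dickson, map_natCast]
    have h2 := S31.pow_add_pow_eq_dickson (D.AO σ) (D.AO σ⁻¹) (f (D.X ℓ)) ℓ
      (by rw [← map_mul, mul_inv_cancel, map_one]) (by rw [← map_mul, inv_mul_cancel, map_one])
      (D.AO_ES ℓ hℓ hℓB A hA σ hσ) b
    rw [← h2]
    change _ = D.AO (σ ^ b) + ((D.ε (σ ^ b) : 𝒪ˣ) : 𝒪) • D.AO (σ ^ b)⁻¹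
    rw [map_pow, map_pow, Units.val_pow_eq_pow_val, D.ε_frob ℓ hℓ hℓB A hA σ hσ, ← inv_pow, map_pow,
      ← Nat.cast_pow, ← Nat.cast_pow, Nat.cast_smul_eq_nsmul, nsmul_eq_mul]
  · rw [piHom_tmul, one_smul, S31.map_dickson, map_natCast]
    change _ = LinearMap.trace T D.ρ.V (D.ρ.ρ (σ ^ b))
    rw [map_pow, S31.trace_pow_eq_dickson D.ρ.finrank_eq _ _ _ (D.ρ_char ℓ hℓ hℓB A hA σ hσ)]

end Fermat.Agent.S32
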