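import Fermat.Agent.S32.Alg.Cont
import Fermat.Agent.S32.Alg.Frob
import Fermat.Agent.S32.Alg.Closed
import Fermat.Agent.S32.Alg.Formal
import Fermat.Agent.GAL.S31.TraceKernel

/-!
# S32 / Alg / Kernel: every `𝒪`-linear relation between the `AO g` holds between the `ρ g`; finite level consequence
-/

set_option autoImplicit false

namespace Fermat.Agent.S32

open Fermat.Agent.GAL
open scoped TensorProduct

variable {𝒪 T : Type} [CommRing 𝒪] [IsLocalRing 𝒪] [CommRing T] [IsLocalRing T] [Algebra 𝒪 T]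

/-- The trace relation: `g + ε(g) g⁻¹` is a Hecke operator `t_g`, and `tr ρ(g) = π(t_g)`. -/
theorem AlgDatum.exists_trace_rel (hFD : FrobeniusDensity) [IsNoetherianRing 𝒪] [Module.Finite 𝒪 T]
    [IsLocalHom (algebraMap 𝒪 T)] (D : AlgDatum 𝒪 T) (g : GQ) :
    ∃ t : D.HT, alphaHom 𝒪 D.Φ t = D.AO g + ((D.ε g : 𝒪ˣ) : 𝒪) • D.AO g⁻¹ ∧
      piHom 𝒪 D.ψ t = LinearMap.trace T D.ρ.V (D.ρ.ρ g) :=
  (D.mem_Γ_iff _).mp (mem_of_frobeniusDensity hFD D.Γ D.u D.u_cont D.B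
    (fun _ hℓ hℓB A hA σ hσ b => D.u_frob hℓ hℓB A hA σ hσ b) g)

/-- The matrices of `ρ` in a basis. -/
noncomputable def AlgDatum.R (D : AlgDatum 𝒪 T) (b : Module.Basis (Fin 2) T D.ρ.V) :
    GQ →* Matrix (Fin 2) (Fin 2) T :=
  ((LinearMap.toMatrixAlgEquiv b : Module.End T D.ρ.V ≃ₐ[T] Matrix (Fin 2) (Fin 2) T) :
    Module.End T D.ρ.V →* Matrix (Fin 2) (Fin 2) T).comp D.ρ.ρ

/-- **The kernel lemma.**  Apply `formal_kernel` with `𝕋 = 𝒪 ⊗ C`, `E = M_r(𝒪)`, `α = alphaHom` (`alphaHom_injective`,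
`alphaHom_comm`), `ε' g = algebraMap 𝒪 𝕋 (ε g)`, `t g` chosen by `exists_trace_rel`, `π = piHom`, `R = D.R b`
(`GAL.S31.span_toMatrix_eq_top`, `LinearMap.trace_eq_matrix_trace`), `s = f.support`, `c g = algebraMap 𝒪 𝕋 (f g)`,
`γ = id`. -/
theorem AlgDatum.ker_le (hFD : FrobeniusDensity) [IsDomain 𝒪] [CharZero 𝒪] [IsNoetherianRing 𝒪]
    [Module.Finite 𝒪 T] [IsLocalHom (algebraMap 𝒪 T)] (D : AlgDatum 𝒪 T)
    (b : Module.Basis (Fin 2) T D.ρ.V) :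
    LinearMap.ker (Finsupp.linearCombination 𝒪 (fun g : GQ => D.AO g)) ≤
      LinearMap.ker (Finsupp.linearCombination 𝒪 (fun g : GQ => D.R b g)) := by
  intro f hf
  rw [LinearMap.mem_ker, Finsupp.linearCombination_apply, Finsupp.sum] at hf ⊢
  choose t ht1 ht2 using fun g => D.exists_trace_rel hFD g
  have hRapp : ∀ g, D.R b g = LinearMap.toMatrix b b (D.ρ.ρ g) := fun g => rfl
  have hα : ∀ x : 𝒪, alphaHom 𝒪 D.Φ (algebraMap 𝒪 D.HT x) = algebraMap 𝒪 _ x :=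
    fun x => (alphaHom 𝒪 D.Φ).commutes x
  have hπ : ∀ x : 𝒪, piHom 𝒪 D.ψ (algebraMap 𝒪 D.HT x) = algebraMap 𝒪 T x :=
    fun x => (piHom 𝒪 D.ψ).commutes x
  have key := formal_kernel (E := Matrix (Fin D.r) (Fin D.r) 𝒪) (𝕋 := D.HT) (G := GQ) (ι := GQ)
    (T := T)
    (alphaHom 𝒪 D.Φ : D.HT →+* _) (alphaHom_injective D.Φ D.Φ_inj) D.AO
    (fun s g => alphaHom_comm D.Φ (D.AO g) (fun c => D.AO_comm c g) s)
    (((algebraMap 𝒪 D.HT : 𝒪 →* D.HT).comp (Units.coeHom 𝒪)).comp D.ε) t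
    (fun g => by
      have := ht1 g
      simp only [RingHom.coe_coe, MonoidHom.comp_apply, Units.coeHom_apply, MonoidHom.coe_coe]
      rw [this, hα, Algebra.algebraMap_eq_smul_one, smul_mul_assoc, one_mul])
    (piHom 𝒪 D.ψ : D.HT →+* T) (D.R b)
    (fun g => by
      rw [hRapp, ← LinearMap.trace_eq_matrix_trace T b]
      exact (ht2 g).symm)
    (by
      have := GAL.S31.span_toMatrix_eq_top D.ρ D.ρ_absIrr b
      exact this)
    f.support (fun g => algebraMap 𝒪 D.HT (f g)) id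
    (by
      rw [← hf]
      refine Finset.sum_congr rfl fun g _ => ?_
      simp only [RingHom.coe_coe, id]
      rw [hα, Algebra.algebraMap_eq_smul_one, smul_mul_assoc, one_mul])
  rw [← key]
  refine Finset.sum_congr rfl fun g _ => ?_
  simp only [RingHom.coe_coe, id]
  rw [hπ, algebraMap_smul]

/-- Finite level. -/
theorem AlgDatum.exists_level (hFD : FrobeniusDensity) [IsDomain 𝒪] [CharZero 𝒪] [IsNoetherianRing 𝒪]
    [Module.Finite 𝒪 T] [IsLocalHom (algebraMap 𝒪 T)] (D : AlgDatum 𝒪 T)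
    (b : Module.Basis (Fin 2) T D.ρ.V) (J : Ideal 𝒪) (j : ℕ) :
    ∃ K : ℕ, ∀ f : GQ →₀ 𝒪,
      Finsupp.linearCombination 𝒪 (fun g : GQ => D.AO g) f ∈
        J ^ K • (⊤ : Submodule 𝒪 (Matrix (Fin D.r) (Fin D.r) 𝒪)) →
      Finsupp.linearCombination 𝒪 (fun g : GQ => D.R b g) f ∈
        J ^ j • (⊤ : Submodule 𝒪 (Matrix (Fin 2) (Fin 2) T)) :=
  exists_pow_of_ker_le _ _ (D.ker_le hFD b) J j

end Fermat.Agent.S32
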