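import Mathlib

/-!
# S32 / Alg / Tensor: the Hecke algebra `𝒪 ⊗ C` acting faithfully on `𝒪^r`

`C` a commutative ring with an injective ring homomorphism `Φ : C → M_r(ℤ)`; `𝒪` a domain of characteristic zero.
`alphaHom Φ : 𝒪 ⊗[ℤ] C → M_r(𝒪)` is injective (`𝒪` is flat over `ℤ`), `piHom ψ : 𝒪 ⊗[ℤ] C → T`.
-/

set_option autoImplicit false

namespace Fermat.Agent.S32

open scoped TensorProduct

variable {r : ℕ} {C 𝒪 T : Type} [CommRing C] [CommRing 𝒪] [CommRing T] [Algebra 𝒪 T]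

/-- The action of `𝒪 ⊗ C` on `𝒪^r`. -/
noncomputable def alphaHom (𝒪 : Type) [CommRing 𝒪] (Φ : C →+* Matrix (Fin r) (Fin r) ℤ) :
    𝒪 ⊗[ℤ] C →ₐ[𝒪] Matrix (Fin r) (Fin r) 𝒪 :=
  Algebra.TensorProduct.lift (Algebra.ofId 𝒪 _)
    (((Int.castRingHom 𝒪).mapMatrix.comp Φ).toIntAlgHom)
    (fun a _ => Algebra.commutes a _)

theorem alphaHom_tmul (Φ : C →+* Matrix (Fin r) (Fin r) ℤ) (o : 𝒪) (c : C) :
    alphaHom 𝒪 Φ (o ⊗ₜ c) = o • (Φ c).map (Int.castRingHom 𝒪) := by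
  have h := Algebra.TensorProduct.lift_tmul (Algebra.ofId 𝒪 (Matrix (Fin r) (Fin r) 𝒪))
    (((Int.castRingHom 𝒪).mapMatrix.comp Φ).toIntAlgHom) (fun a _ => Algebra.commutes a _) o c
  refine h.trans ?_
  rw [Algebra.ofId_apply, ← Algebra.smul_def]
  rfl

theorem Tensor_flat_int (𝒪 : Type) [CommRing 𝒪] [IsDomain 𝒪] [CharZero 𝒪] : Module.Flat ℤ 𝒪 := by
  rw [Module.Flat.flat_iff_torsion_eq_bot_of_isBezout, ← Submodule.isTorsionFree_iff_torsion_eq_bot]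
  infer_instance

theorem alphaHom_injective [IsDomain 𝒪] [CharZero 𝒪] (Φ : C →+* Matrix (Fin r) (Fin r) ℤ)
    (hΦ : Function.Injective Φ) : Function.Injective (alphaHom 𝒪 Φ) := by
  have hflat : Module.Flat ℤ 𝒪 := Tensor_flat_int 𝒪
  let Φl : C →ₗ[ℤ] Matrix (Fin r) (Fin r) ℤ := Φ.toAddMonoidHom.toIntLinearMap
  have h1 : Function.Injective (Φl.lTensor 𝒪) :=
    Module.Flat.lTensor_preserves_injective_linearMap Φl hΦ
  have h2 : ∀ s : 𝒪 ⊗[ℤ] C,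
      alphaHom 𝒪 Φ s = (matrixEquivTensor (Fin r) ℤ 𝒪).symm (Φl.lTensor 𝒪 s) := by
    intro s
    induction s using TensorProduct.induction_on with
    | zero => simp
    | tmul o c =>
      rw [alphaHom_tmul, LinearMap.lTensor_tmul, matrixEquivTensor_apply_symm]
      rfl
    | add x y hx hy => rw [map_add, map_add, map_add, hx, hy]
  intro s t hst
  rw [h2, h2] at hst
  exact h1 ((matrixEquivTensor (Fin r) ℤ 𝒪).symm.injective hst)

/-- The specialisation `𝒪 ⊗ C → T`. -/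
noncomputable def piHom (𝒪 : Type) [CommRing 𝒪] [Algebra 𝒪 T] (ψ : C →+* T) : 𝒪 ⊗[ℤ] C →ₐ[𝒪] T :=
  Algebra.TensorProduct.lift (Algebra.ofId 𝒪 T) ψ.toIntAlgHom (fun _ _ => Commute.all _ _)

theorem piHom_tmul (ψ : C →+* T) (o : 𝒪) (c : C) : piHom 𝒪 ψ (o ⊗ₜ c) = o • ψ c := by
  have h := Algebra.TensorProduct.lift_tmul (Algebra.ofId 𝒪 T) ψ.toIntAlgHom
    (fun _ _ => Commute.all _ _) o c
  refine h.trans ?_
  rw [Algebra.ofId_apply, ← Algebra.smul_def]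
  rfl

/-- If all `Φ c` commute with `B`, so do all `alphaHom Φ s`. -/
theorem alphaHom_comm (Φ : C →+* Matrix (Fin r) (Fin r) ℤ) (B : Matrix (Fin r) (Fin r) 𝒪)
    (hB : ∀ c : C, (Φ c).map (Int.castRingHom 𝒪) * B = B * (Φ c).map (Int.castRingHom 𝒪))
    (s : 𝒪 ⊗[ℤ] C) : alphaHom 𝒪 Φ s * B = B * alphaHom 𝒪 Φ s := by
  induction s using TensorProduct.induction_on with
  | zero => simp
  | tmul o c => rw [alphaHom_tmul, smul_mul_assoc, hB, mul_smul_comm]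
  | add x y hx hy => rw [map_add, add_mul, mul_add, hx, hy]

end Fermat.Agent.S32
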